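/-
Programme I (S33 long shot), block A (Step A), node A8 (Galois), part 1: Mathlib-only tools.

* `norm_comp_eq_of_unitBall` : a ring automorphism `g` of a field `F` which preserves the unit ball
  of the norm `‖e ·‖` (`e : F →+* L`, `L` a normed field) and fixes an element `t` with
  `0 < ‖e t‖ < 1` is an isometry: `‖e (g x)‖ = ‖e x‖` (two absolute values with the same unit ball
  are powers of each other);
* `exists_extend_ringHom` : extension of a norm-compatible ring hom along a ring hom with dense
  range into a complete normed field;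
* `exists_extend_ringEquiv` : an isometric automorphism of `(F, ‖e ·‖)` extends to an isometric ring
  automorphism of `L` when `e` has dense range and `L` is complete;
* `ringHom_ext_of_denseRange` : continuous maps into a T2 space agreeing on a dense range are equal.
-/
import Mathlib

set_option autoImplicit false

namespace Fermat.Agent.FF3.StepA8

section UnitBall

variable {F : Type*} [Field F] {L : Type*} [NormedField L]

/-- Two absolute values with the same unit ball which agree at one element of size in `(0, 1)`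
are equal; stated for `‖e ·‖` and `‖e (g ·)‖`. -/
theorem norm_comp_eq_of_unitBall (e : F →+* L) (g : F ≃+* F)
    (hball : ∀ x, ‖e (g x)‖ ≤ 1 ↔ ‖e x‖ ≤ 1) {t : F} (ht0 : t ≠ 0) (ht1 : ‖e t‖ < 1)
    (htg : g t = t) : ∀ x, ‖e (g x)‖ = ‖e x‖ := by
  let v : AbsoluteValue F ℝ := (NormedField.toAbsoluteValue L).comp e.injective
  let w : AbsoluteValue F ℝ := v.comp (f := (g : F →+* F)) g.injective
  have hv : ∀ x, v x = ‖e x‖ := fun _ => rfl
  have hw : ∀ x, w x = ‖e (g x)‖ := fun _ => rfl
  have hvt0 : 0 < v t := v.pos ht0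
  have hnt : v.IsNontrivial := ⟨t, ht0, by rw [hv]; exact ht1.ne⟩
  have himp : ∀ x, v x < 1 → w x < 1 := by
    intro x hx
    rcases eq_or_ne x 0 with rfl | hx0
    · rw [map_zero]; exact one_pos
    · have h1 : ¬ v x⁻¹ ≤ 1 := by
        rw [map_inv₀, not_le]
        exact (one_lt_inv₀ (v.pos hx0)).mpr hx
      have h2 : ¬ w x⁻¹ ≤ 1 := by
        rw [hw, hball, ← hv]; exact h1
      rw [map_inv₀, not_le] at h2
      exact (one_lt_inv₀ (w.pos hx0)).mp h2
  obtain ⟨c, hc0, hc⟩ := AbsoluteValue.isEquiv_iff_exists_rpow_eq.mp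
    (AbsoluteValue.isEquiv_of_lt_one_imp hnt himp)
  have hct : v t ^ c = v t := by
    have h3 : v t ^ c = w t := congrFun hc t
    rw [h3, hw, htg, hv]
  have hc1 : c = 1 := by
    have hlog : Real.log (v t) ≠ 0 := by
      have : Real.log (v t) < 0 := Real.log_neg hvt0 (by rw [hv]; exact ht1)
      exact this.ne
    have h := congrArg Real.log hct
    rw [Real.log_rpow hvt0] at h
    exact mul_right_cancel₀ hlog (by rw [h, one_mul])
  intro x
  have h4 : v x ^ c = w x := congrFun hc x
  rw [← hw, ← h4, hc1, Real.rpow_one, hv]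

end UnitBall

section Extend

variable {F : Type*} [Field F] {L : Type*} [NormedField L] {L' : Type*} [NormedField L']

/-- Continuous maps agreeing on a dense range are equal. -/
theorem ringHom_ext_of_denseRange {X : Type*} {e : X → L} (he : DenseRange e) {a b : L → L'}
    (ha : Continuous a) (hb : Continuous b) (h : ∀ x, a (e x) = b (e x)) : a = b :=
  he.equalizer ha hb (funext h)

/-- A norm-preserving ring hom is continuous. -/
theorem continuous_of_norm_eq (τ : L →+* L') (h : ∀ y, ‖τ y‖ = ‖y‖) : Continuous τ :=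
  (AddMonoidHomClass.isometry_of_norm τ h).continuous

variable [CompleteSpace L']

/-- Extension of a norm-compatible ring hom along a ring hom with dense range. -/
theorem exists_extend_ringHom (e : F →+* L) (he : DenseRange e) (f : F →+* L')
    (hf : ∀ x, ‖f x‖ = ‖e x‖) :
    ∃ τ : L →+* L', (∀ y, ‖τ y‖ = ‖y‖) ∧ ∀ x, τ (e x) = f x := by
  let S : Subring L := e.range
  let eq : F ≃+* S := RingEquiv.ofBijective e.rangeRestrict
    ⟨fun a b hab => e.injective (congrArg Subtype.val hab), e.rangeRestrict_surjective⟩
  have heq : ∀ x, ((eq x : S) : L) = e x := fun _ => rfl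
  let f' : S →+* L' := f.comp (eq.symm : S →+* F)
  have hf' : ∀ s : S, ‖f' s‖ = ‖s‖ := by
    intro s
    obtain ⟨x, rfl⟩ := eq.surjective s
    show ‖f (eq.symm (eq x))‖ = ‖((eq x : S) : L)‖
    rw [RingEquiv.symm_apply_apply, hf, heq]
  have ue : IsUniformInducing (S.subtype : S →+* L) := isUniformEmbedding_subtype_val.isUniformInducing
  have dr : DenseRange (S.subtype : S →+* L) := by
    have : Set.range (S.subtype : S →+* L) = Set.range e := by
      ext y
      constructor
      · rintro ⟨s, rfl⟩
        exact s.2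
      · rintro ⟨x, rfl⟩
        exact ⟨⟨e x, x, rfl⟩, rfl⟩
    rw [DenseRange, this]
    exact he
  have huc : UniformContinuous f' := (AddMonoidHomClass.isometry_of_norm f' hf').uniformContinuous
  let τ : L →+* L' := IsDenseInducing.extendRingHom ue dr huc
  have hτ : ∀ s : S, τ (s : L) = f' s := fun s =>
    IsDenseInducing.extend_eq (ue.isDenseInducing dr) huc.continuous s
  have hτc : Continuous τ := (uniformContinuous_uniformly_extend ue dr huc).continuous
  refine ⟨τ, fun y => ?_, fun x => ?_⟩
  · refine DenseRange.induction_on dr y (isClosed_eq (continuous_norm.comp hτc) continuous_norm)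
      fun s => ?_
    show ‖τ (s : L)‖ = ‖(s : L)‖
    rw [hτ, hf']
    rfl
  · have := hτ (eq x)
    rw [heq] at this
    rw [this]
    show f (eq.symm (eq x)) = f x
    rw [RingEquiv.symm_apply_apply]

end Extend

section Equiv

variable {F : Type*} [Field F] {L : Type*} [NormedField L] [CompleteSpace L]

/-- An isometric automorphism of `(F, ‖e ·‖)` extends to an isometric ring automorphism of the
complete field `L` in which `e F` is dense. -/
theorem exists_extend_ringEquiv (e : F →+* L) (he : DenseRange e) (g : F ≃+* F)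
    (hg : ∀ x, ‖e (g x)‖ = ‖e x‖) :
    ∃ τ : L ≃+* L, (∀ y, ‖τ y‖ = ‖y‖) ∧ (∀ x, τ (e x) = e (g x)) ∧
      ∀ x, τ.symm (e x) = e (g.symm x) := by
  obtain ⟨τ₁, h1n, h1e⟩ := exists_extend_ringHom e he (e.comp (g : F →+* F)) (fun x => hg x)
  obtain ⟨τ₂, h2n, h2e⟩ := exists_extend_ringHom e he (e.comp (g.symm : F →+* F)) (fun x => by
    have := hg (g.symm x)
    rw [RingEquiv.apply_symm_apply] at this
    exact this.symm)
  have c1 := continuous_of_norm_eq τ₁ h1n
  have c2 := continuous_of_norm_eq τ₂ h2n
  have h12 : τ₁.comp τ₂ = RingHom.id L := by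
    apply RingHom.coe_inj
    refine ringHom_ext_of_denseRange he (c1.comp c2) continuous_id fun x => ?_
    show τ₁ (τ₂ (e x)) = e x
    rw [h2e, RingHom.comp_apply, h1e, RingHom.comp_apply]
    show e (g (g.symm x)) = e x
    rw [RingEquiv.apply_symm_apply]
  have h21 : τ₂.comp τ₁ = RingHom.id L := by
    apply RingHom.coe_inj
    refine ringHom_ext_of_denseRange he (c2.comp c1) continuous_id fun x => ?_
    show τ₂ (τ₁ (e x)) = e x
    rw [h1e, RingHom.comp_apply, h2e, RingHom.comp_apply]
    show e (g.symm (g x)) = e x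
    rw [RingEquiv.symm_apply_apply]
  refine ⟨RingEquiv.ofRingHom τ₁ τ₂ h12 h21, h1n, fun x => h1e x, fun x => h2e x⟩

end Equiv

end Fermat.Agent.FF3.StepA8
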