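/-
Programme I (S33 long shot), block A (Step A), node A8 (Galois), part 2: the decomposition group
acts on a frame by isometries, and `tor#` is stable.

Statements = the literals `Frame.exists_galois`, `smul_mem_torSharp`, `smul_mem_torSharpApprox` of
the contract `FF3/StepA/Contract.lean` (helper27, finding #1734), proved here from the sorry-free
API file `FF3/StepA/Defs.lean` only (`Frame`, `Frame.e2`, `Frame.Kc`, `IsTorSharp`, `ApproxPow`,
`IsTorSharpApprox`).

* `norm_e1_natCast_lt_one` : `‖e1 q‖ < 1`; `denseRange_e1`;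
* `norm_e1_gal_smul` : `‖e1 (σ • x)‖ = ‖e1 x‖` for `σ` in the decomposition group of `B`;
* `exists_galois` : the isometric extension `τ : L ≃+* L` with `τ ∘ e1 = e1 ∘ σ`,
  `τ ∘ e2 = e2 ∘ σ`, `τ φ = φ τ`, `τ Kc ⊆ Kc`;
* `isCP_map`, `isTorSharp_smul`, `approxPow_smul`, `isTorSharpApprox_smul`.
-/
import Mathlib
import Fermat.Agent.FF3.StepA.Defs
import Fermat.Agent.FF3.StepA8.Extend
import Fermat.Agent.BR.GaloisTwo
import Fermat.Agent.Jac.HeckeGalois
import Fermat.Agent.BR2.G3PrepRes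

set_option autoImplicit false
set_option linter.unusedSectionVars false
set_option synthInstance.maxHeartbeats 400000

noncomputable section

namespace Fermat.Agent.FF3.StepA8

open AlgebraicCurve ModularCurve IsLocalRing Fermat.Agent.Red Fermat.Agent.X0 Fermat.Agent.Hecke
  Fermat.Agent.Jac Fermat.Agent.Val Fermat.Agent.BR Fermat.Agent.BR.TwoVal
  Fermat.Agent.BR.ValTwo Fermat.Agent.BR.GaloisTwo Fermat.Agent.FF3.StepA

variable {M q : ℕ} [NeZero M] [hq : Fact q.Prime]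
  {B : ValuationSubring (AlgebraicClosure ℚ)} [IsAlgClosed (ResidueField B)]
  [CharP (ResidueField B) q]
  {hB : B.LiesOverPrime q} {hqM : ¬ q ∣ M}
  {L : Type} [NormedField L] (Fr : Frame M q B hB L)

/-- `e1` has dense range. -/
theorem denseRange_e1 : DenseRange Fr.e1 := by
  refine Dense.mono ?_ Fr.dense
  rintro _ ⟨x, rfl⟩
  exact ⟨_, rfl⟩

/-- `q ≠ 0` in the function field and `‖e1 q‖ < 1`. -/
theorem natCast_ne_zero_and_norm_lt_one :
    ((q : ℕ) : Fb (M * q)) ≠ 0 ∧ ‖Fr.e1 ((q : ℕ) : Fb (M * q))‖ < 1 := by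
  have hcast : ((q : ℕ) : Fb (M * q)) = algebraMap Kb (Fb (M * q)) ((q : ℕ) : Kb) :=
    (map_natCast _ q).symm
  have hmemB : ((q : ℕ) : Kb) ∈ B := natCast_mem B q
  have hinvB : (((q : ℕ) : Kb))⁻¹ ∉ B := by
    rcases (B.mem_nonunits_iff_or).mp hB with h0 | h0
    · exact absurd h0 (by exact_mod_cast hq.out.ne_zero)
    · exact h0
  have hmem : ((q : ℕ) : Fb (M * q)) ∈ O1 M B hB := by
    rw [hcast]
    exact (algebraMap_mem_valOne_iff (M := M) hq.out B hB _).mpr hmemB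
  have hinv : (((q : ℕ) : Fb (M * q)))⁻¹ ∉ O1 M B hB := by
    rw [hcast, ← map_inv₀]
    intro h
    exact hinvB ((algebraMap_mem_valOne_iff (M := M) hq.out B hB _).mp h)
  have hne : ((q : ℕ) : Fb (M * q)) ≠ 0 := by
    intro h0
    apply hinv
    rw [h0, inv_zero]
    exact zero_mem _
  refine ⟨hne, ?_⟩
  have h1 : ¬ ‖Fr.e1 (((q : ℕ) : Fb (M * q)))⁻¹‖ ≤ 1 := fun h =>
    hinv ((Fr.norm_le_one_iff _).mp h)
  rw [map_inv₀, norm_inv, not_le] at h1
  have hpos : 0 < ‖Fr.e1 ((q : ℕ) : Fb (M * q))‖ := by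
    rw [norm_pos_iff, Ne, map_eq_zero]
    exact hne
  exact (one_lt_inv₀ hpos).mp h1

variable {σ : Kb ≃ₐ[ℚ] Kb}

/-- The decomposition group of `B` acts on `(F̄_{Mq}, ‖e1 ·‖)` by isometries. -/
theorem norm_e1_gal_smul (hσ : σ ∈ B.decompositionSubgroup ℚ) (x : Fb (M * q)) :
    ‖Fr.e1 (gal (M * q) σ • x)‖ = ‖Fr.e1 x‖ := by
  obtain ⟨hq0, hq1⟩ := natCast_ne_zero_and_norm_lt_one Fr
  refine norm_comp_eq_of_unitBall Fr.e1 (SemilinearAut.toRingAut (gal (M * q) σ)) (fun y => ?_)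
    hq0 hq1 (map_natCast _ q) x
  rw [Fr.norm_le_one_iff, Fr.norm_le_one_iff]
  exact gal_smul_mem_O1_iff B hB hσ

variable [CompleteSpace L] [IsUltrametricDist L]

/-- **(A-gal)** the decomposition group of `B` acts on the frame by isometries. -/
theorem exists_galois (hσ : σ ∈ B.decompositionSubgroup ℚ) :
    ∃ τ : L ≃+* L, (∀ y : L, ‖τ y‖ = ‖y‖) ∧
      (∀ x : Fb (M * q), τ (Fr.e1 x) = Fr.e1 (gal (M * q) σ • x)) ∧
      (∀ x : Fb (M * q), τ (Fr.e2 hqM x) = Fr.e2 hqM (gal (M * q) σ • x)) ∧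
      (∀ y : L, τ (Fr.φ y) = Fr.φ (τ y)) ∧ ∀ y ∈ Fr.Kc, τ y ∈ Fr.Kc := by
  obtain ⟨τ, hn, he, -⟩ := exists_extend_ringEquiv Fr.e1 (denseRange_e1 Fr)
    (SemilinearAut.toRingAut (gal (M * q) σ)) (fun x => norm_e1_gal_smul Fr hσ x)
  have he' : ∀ x : Fb (M * q), τ (Fr.e1 x) = Fr.e1 (gal (M * q) σ • x) := he
  have hτc : Continuous τ := continuous_of_norm_eq (τ : L →+* L) hn
  have hφc : Continuous Fr.φ := continuous_of_norm_eq Fr.φ Fr.norm_phi
  refine ⟨τ, hn, he', fun x => ?_, fun y => ?_, fun y hy => ?_⟩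
  · -- `e2 = e1 ∘ W_q`, and `W_q` is defined over `ℚ`
    show τ (Fr.e1 (Wq hqM x)) = Fr.e1 (Wq hqM (gal (M * q) σ • x))
    rw [he', Wq_gal_smul]
  · -- `τ φ = φ τ` on the dense set `e1 (α (F̄_M))`
    have key : (fun y => τ (Fr.φ y)) = fun y => Fr.φ (τ y) := by
      refine ringHom_ext_of_denseRange Fr.dense (hτc.comp hφc) (hφc.comp hτc) fun x => ?_
      show τ (Fr.φ (Fr.e1 (heckeAlphaBar Kb M q x))) = Fr.φ (τ (Fr.e1 (heckeAlphaBar Kb M q x)))
      rw [← Fr.e1_beta, he', he', ← heckeBetaBar_galAut, ← heckeAlphaBar_galAut, Fr.e1_beta]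
    exact congrFun key y
  · -- constants
    have hmaps : Set.MapsTo τ
        (((algebraMap Kb (Fb (M * q))).fieldRange.map Fr.e1 : Subfield L) : Set L)
        (((algebraMap Kb (Fb (M * q))).fieldRange.map Fr.e1 : Subfield L) : Set L) := by
      rintro _ ⟨_, ⟨c, rfl⟩, rfl⟩
      refine ⟨algebraMap Kb (Fb (M * q)) (SemilinearAut.baseAut (gal (M * q) σ) c), ⟨_, rfl⟩, ?_⟩
      show Fr.e1 _ = τ (Fr.e1 _)
      rw [he', SemilinearAut.smul_algebraMap]
    have hy' : y ∈ closure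
        (((algebraMap Kb (Fb (M * q))).fieldRange.map Fr.e1 : Subfield L) : Set L) := hy
    exact map_mem_closure hτc hy' hmaps

/-! ### `tor#` is stable under the decomposition group -/

/-- `IsCP` is transported by a ring automorphism preserving `Kc`. -/
theorem isCP_map {Kc : Subfield L} (τ : L ≃+* L) (hK : ∀ y ∈ Kc, τ y ∈ Kc) {m : ℕ} {y : L}
    (hy : IsCP Kc m y) : IsCP Kc m (τ y) := by
  obtain ⟨c, hc, u, rfl⟩ := hy
  exact ⟨τ c, hK c hc, τ u, by rw [map_mul, map_pow]⟩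

/-- **(A-gal')** `tor#` is stable under the decomposition group (predicate form). -/
theorem isTorSharp_smul (hσ : σ ∈ B.decompositionSubgroup ℚ) (m : ℕ) {x : JZero (M * q)}
    (hx : IsTorSharp Fr hqM m x) : IsTorSharp Fr hqM m (σ • x) := by
  obtain ⟨τ, -, he1, he2, -, hK⟩ := exists_galois (hqM := hqM) Fr hσ
  obtain ⟨D, f, hrep, h1, h2⟩ := hx
  refine ⟨SemilinearAut.degZeroSMulHom (gal (M * q) σ) D, gal (M * q) σ • f,
    BR2.Filt.IsRep.smul (gal (M * q) σ) hrep, ?_, ?_⟩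
  · show IsCP Fr.Kc m (Fr.e1 (gal (M * q) σ • f))
    rw [← he1]
    exact isCP_map τ hK h1
  · show IsCP Fr.Kc m (Fr.e2 hqM (gal (M * q) σ • f))
    rw [← he2]
    exact isCP_map τ hK h2

omit [CompleteSpace L] [IsUltrametricDist L] in
/-- `ApproxPow` at a valuation ring preserved by `σ` is preserved by `σ`. -/
theorem approxPow_smul {O : ValuationSubring (Fb (M * q))}
    (hO : ∀ y ∈ O, gal (M * q) σ • y ∈ O) {m : ℕ} {f : Fb (M * q)}
    (hf : ApproxPow (M := M) (q := q) O m f) :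
    ApproxPow (M := M) (q := q) O m (gal (M * q) σ • f) := by
  intro n
  obtain ⟨c, u, hc, hu, z, hz, h⟩ := hf n
  refine ⟨SemilinearAut.baseAut (gal (M * q) σ) c, gal (M * q) σ • u, ?_, ?_,
    gal (M * q) σ • z, hO z hz, ?_⟩
  · rwa [Ne, map_eq_zero_iff _ (SemilinearAut.baseAut (gal (M * q) σ)).injective]
  · rwa [Ne, smul_eq_zero_iff_eq]
  · have this : gal (M * q) σ • (c • u ^ m) =
        gal (M * q) σ • (f * (1 + ((q : ℕ) : Fb (M * q)) ^ n * z)) :=
      congrArg (fun y => gal (M * q) σ • y) h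
    have hgq : gal (M * q) σ • ((q : ℕ) : Fb (M * q)) = ((q : ℕ) : Fb (M * q)) :=
      map_natCast (SemilinearAut.toRingAut (gal (M * q) σ)) q
    rw [Algebra.smul_def, smul_mul', SemilinearAut.smul_algebraMap, smul_pow', smul_mul',
      smul_add, smul_one, smul_mul', smul_pow', hgq] at this
    rw [Algebra.smul_def, this]

omit [CompleteSpace L] [IsUltrametricDist L] in
/-- frame-free `tor#` is stable under the decomposition group (predicate form). -/
theorem isTorSharpApprox_smul (hσ : σ ∈ B.decompositionSubgroup ℚ) (m : ℕ)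
    {x : JZero (M * q)} (hx : IsTorSharpApprox (B := B) (hB := hB) hqM m x) :
    IsTorSharpApprox (B := B) (hB := hB) hqM m (σ • x) := by
  obtain ⟨D, f, hrep, h1, h2⟩ := hx
  refine ⟨SemilinearAut.degZeroSMulHom (gal (M * q) σ) D, gal (M * q) σ • f,
    BR2.Filt.IsRep.smul (gal (M * q) σ) hrep, ?_, ?_⟩
  · exact approxPow_smul (fun y hy => (gal_smul_mem_O1_iff B hB hσ).mpr hy) h1
  · exact approxPow_smul (fun y hy => (gal_smul_mem_O2_iff hqM B hB hσ).mpr hy) h2

end Fermat.Agent.FF3.StepA8
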